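import Mathlib
import Fermat.Agent.PT.Units.SUnitHerbrand

/-!
# S56, block EQ-ARITH, package leaf LOG-EQUIV (helper87): Galois equivariance of the logarithms

`K` a number field, `σ ∈ Gal(K/ℚ)`.

* `h87q_act σ v` = the prime `σ v` (`= SU_pull σ⁻¹ v`), `h87q_mulAction` the left action of
  `Gal(K/ℚ)` on the finite places;
* `h87q_ord_pull`, `h87q_ord_act`: `ord_v(σ x) = ord_{σ⁻¹ v}(x)`, `ord_{σ v}(σ x) = ord_v(x)`;
* `h87q_absNorm_pull`, `h87q_absNorm_act`: `N(σ v) = N(v)`;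
* `h87q_infinite_apply`, `h87q_mult_smul`: `(σ w)(σ x) = w(x)`, `mult (σ w) = mult w`;
* `h87q_unit_mem`, `h87q_rep`: the action of `Gal(K/ℚ)` on the `S`-units (`S` Galois stable).
-/

set_option autoImplicit false

noncomputable section

namespace Fermat.Agent.S56G

open IsDedekindDomain NumberField Fermat.Agent.PT.Units

section Equiv

variable {K : Type} [Field K] [NumberField K]

lemma h87q_gR_one (r : 𝓞 K) : SU_gR (K := ℚ) (L := K) (1 : Gal(K/ℚ)) r = r := by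
  apply FaithfulSMul.algebraMap_injective (𝓞 K) K
  rw [SU_gR_coe]
  rfl

lemma h87q_gR_mul (σ τ : Gal(K/ℚ)) (r : 𝓞 K) :
    SU_gR (K := ℚ) (L := K) (σ * τ) r = SU_gR σ (SU_gR τ r) := by
  apply FaithfulSMul.algebraMap_injective (𝓞 K) K
  rw [SU_gR_coe, SU_gR_coe, SU_gR_coe]
  rfl

lemma h87q_pull_one (v : HeightOneSpectrum (𝓞 K)) :
    SU_pull (K := ℚ) (L := K) (1 : Gal(K/ℚ)) v = v := by
  apply HeightOneSpectrum.ext
  ext r
  rw [SU_pull_asIdeal, Ideal.mem_comap]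
  show SU_gR (1 : Gal(K/ℚ)) r ∈ v.asIdeal ↔ _
  rw [h87q_gR_one]

lemma h87q_pull_mul (σ τ : Gal(K/ℚ)) (v : HeightOneSpectrum (𝓞 K)) :
    SU_pull (K := ℚ) (L := K) (σ * τ) v = SU_pull τ (SU_pull σ v) := by
  apply HeightOneSpectrum.ext
  ext r
  rw [SU_pull_asIdeal, SU_pull_asIdeal, SU_pull_asIdeal, Ideal.mem_comap, Ideal.mem_comap,
    Ideal.mem_comap]
  show SU_gR (σ * τ) r ∈ v.asIdeal ↔ SU_gR σ (SU_gR τ r) ∈ v.asIdeal
  rw [h87q_gR_mul]

/-- The prime `σ v`. -/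
def h87q_act (σ : Gal(K/ℚ)) (v : HeightOneSpectrum (𝓞 K)) : HeightOneSpectrum (𝓞 K) :=
  SU_pull (K := ℚ) (L := K) σ⁻¹ v

lemma h87q_act_one (v : HeightOneSpectrum (𝓞 K)) : h87q_act (1 : Gal(K/ℚ)) v = v := by
  rw [h87q_act, inv_one, h87q_pull_one]

lemma h87q_act_mul (σ τ : Gal(K/ℚ)) (v : HeightOneSpectrum (𝓞 K)) :
    h87q_act (σ * τ) v = h87q_act σ (h87q_act τ v) := by
  rw [h87q_act, h87q_act, h87q_act, mul_inv_rev, h87q_pull_mul]

/-- The left action of `Gal(K/ℚ)` on the finite places. -/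
abbrev h87q_mulAction : MulAction Gal(K/ℚ) (HeightOneSpectrum (𝓞 K)) where
  smul := h87q_act
  one_smul := h87q_act_one
  mul_smul := h87q_act_mul

lemma h87q_pull_act (σ : Gal(K/ℚ)) (v : HeightOneSpectrum (𝓞 K)) :
    SU_pull (K := ℚ) (L := K) σ (h87q_act σ v) = v := by
  rw [h87q_act, ← h87q_pull_mul, inv_mul_cancel, h87q_pull_one]

lemma h87q_act_pull (σ : Gal(K/ℚ)) (v : HeightOneSpectrum (𝓞 K)) :
    h87q_act σ (SU_pull (K := ℚ) (L := K) σ v) = v := by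
  rw [h87q_act, ← h87q_pull_mul, mul_inv_cancel, h87q_pull_one]

/-- `ord_v(σ x) = ord_{σ⁻¹ v}(x)`. -/
theorem h87q_ord_pull (σ : Gal(K/ℚ)) (v : HeightOneSpectrum (𝓞 K)) (x : Kˣ) :
    SU_ord K v (Additive.ofMul (Units.map (σ : K →* K) x)) =
      SU_ord K (SU_pull (K := ℚ) (L := K) σ v) (Additive.ofMul x) := by
  apply WithZero.exp_injective
  rw [SU_exp_ord, SU_exp_ord]
  exact SU_valuation_gal σ v (x : K)

/-- `ord_{σ v}(σ x) = ord_v(x)`. -/
theorem h87q_ord_act (σ : Gal(K/ℚ)) (v : HeightOneSpectrum (𝓞 K)) (x : Kˣ) :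
    SU_ord K (h87q_act σ v) (Additive.ofMul (Units.map (σ : K →* K) x)) =
      SU_ord K v (Additive.ofMul x) := by
  rw [h87q_ord_pull, h87q_pull_act]

/-- `N(σ⁻¹ v) = N(v)`. -/
theorem h87q_absNorm_pull (σ : Gal(K/ℚ)) (v : HeightOneSpectrum (𝓞 K)) :
    Ideal.absNorm (SU_pull (K := ℚ) (L := K) σ v).asIdeal = Ideal.absNorm v.asIdeal := by
  rw [Ideal.absNorm_apply, Ideal.absNorm_apply, Submodule.cardQuot_apply,
    Submodule.cardQuot_apply]
  have h : v.asIdeal = Ideal.map ((SU_gR (K := ℚ) (L := K) σ : 𝓞 K ≃+* 𝓞 K) : 𝓞 K →+* 𝓞 K)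
      (SU_pull (K := ℚ) (L := K) σ v).asIdeal := by
    rw [SU_pull_asIdeal]
    exact (Ideal.map_comap_of_surjective _ (SU_gR σ).surjective _).symm
  exact Nat.card_congr (Ideal.quotientEquiv _ _ (SU_gR (K := ℚ) (L := K) σ) h).toEquiv

/-- `N(σ v) = N(v)`. -/
theorem h87q_absNorm_act (σ : Gal(K/ℚ)) (v : HeightOneSpectrum (𝓞 K)) :
    Ideal.absNorm (h87q_act σ v).asIdeal = Ideal.absNorm v.asIdeal :=
  h87q_absNorm_pull σ⁻¹ v

/-- `(σ w)(σ x) = w(x)` at the infinite places. -/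
theorem h87q_infinite_apply (σ : Gal(K/ℚ)) (w : InfinitePlace K) (x : K) :
    (σ • w) (σ x) = w x := by
  rw [InfinitePlace.smul_apply]
  exact congrArg w (σ.symm_apply_apply x)

/-- `mult (σ w) = mult w`. -/
theorem h87q_mult_smul (σ : Gal(K/ℚ)) (w : InfinitePlace K) :
    (σ • w).mult = w.mult := by
  have h : (σ • w).IsReal ↔ w.IsReal := InfinitePlace.isReal_smul_iff
  by_cases hw : w.IsReal
  · rw [InfinitePlace.mult, InfinitePlace.mult, if_pos hw, if_pos (h.mpr hw)]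
  · rw [InfinitePlace.mult, InfinitePlace.mult, if_neg hw, if_neg (fun h' => hw (h.mp h'))]

variable (S : Set (HeightOneSpectrum (𝓞 K)))

/-- `σ` preserves the `S`-units if `S` is Galois stable. -/
theorem h87q_unit_mem (hS : ∀ (σ : Gal(K/ℚ)) (v : HeightOneSpectrum (𝓞 K)),
      v ∈ S → SU_pull (K := ℚ) (L := K) σ v ∈ S)
    (σ : Gal(K/ℚ)) (x : Kˣ) (hx : x ∈ S.unit K) : Units.map (σ : K →* K) x ∈ S.unit K := by
  intro v hv
  show v.valuation K (σ (x : K)) = 1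
  rw [SU_valuation_gal]
  apply hx
  intro hmem
  apply hv
  have := hS σ⁻¹ _ hmem
  rwa [← h87q_pull_mul, mul_inv_cancel, h87q_pull_one] at this

/-- The action of `Gal(K/ℚ)` on the `S`-units, `S` Galois stable. -/
def h87q_rep (hS : ∀ (σ : Gal(K/ℚ)) (v : HeightOneSpectrum (𝓞 K)),
      v ∈ S → SU_pull (K := ℚ) (L := K) σ v ∈ S) :
    Representation ℤ Gal(K/ℚ) (Additive (S.unit K)) where
  toFun σ := (MonoidHom.toAdditive
    ({ toFun := fun x => ⟨Units.map (σ : K →* K) x.1, h87q_unit_mem S hS σ x.1 x.2⟩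
       map_one' := by ext; simp
       map_mul' := fun a b => by ext; simp } : S.unit K →* S.unit K)).toIntLinearMap
  map_one' := by
    ext x
    rfl
  map_mul' σ τ := by
    ext x
    rfl

lemma h87q_rep_coe (hS : ∀ (σ : Gal(K/ℚ)) (v : HeightOneSpectrum (𝓞 K)),
      v ∈ S → SU_pull (K := ℚ) (L := K) σ v ∈ S) (σ : Gal(K/ℚ)) (a : Additive (S.unit K)) :
    (((Additive.toMul (h87q_rep S hS σ a) : S.unit K) : Kˣ) : K) =
      σ (((Additive.toMul a : S.unit K) : Kˣ) : K) := rfl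

end Equiv

end Fermat.Agent.S56G
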