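import Mathlib
import Fermat.Agent.S56G.H93PkgIface
import Fermat.Agent.PT.Bridge.LocGrpE
import Fermat.Agent.PT.Bridge.Levels

/-!
# S56, block EQ-ARITH, package leaf PKG-LOG-PROD (helper87): `theorem h87p_logProd : H93PkgLogProd`

The product formula `∑_{i ∈ S ∪ {∞}} ∑_{g ∈ G} log ‖g a‖_i = 0` for an `S`-unit `a` of
`K = fieldOf U₀`: `b = ∑_g g a` is Galois invariant, so `ι b = r ∈ ℚˣ`; `r` is an `S`-unit of `ℚ`
and `log |r| + ∑_{q ∈ S} log ‖r‖_q = 0`.
-/

set_option autoImplicit false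

open ExtCitation

noncomputable section

namespace Fermat.Agent.S56G

open Fermat.Agent.PT Fermat.Agent.PT.Glob Fermat.Agent.PT.Bridge

local notation "Qb" => AlgebraicClosure ℚ

/-- `log n = ∑_{p ∈ U} v_p(n) log p` for a finite set of primes containing the prime factors. -/
lemma h87p_log_nat (n : ℕ) (U : Finset ℕ) (hU : n.primeFactors ⊆ U) :
    Real.log (n : ℝ) = ∑ p ∈ U, (n.factorization p : ℝ) * Real.log (p : ℝ) := by
  rw [Real.log_nat_eq_sum_factorization]
  exact Finsupp.sum_of_support_subset _ (by simpa using hU) _ (by simp)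

/-- The product formula of `ℚ`, logarithmic form. -/
lemma h87p_log_rat (r : ℚ) (hr : r ≠ 0) (U : Finset ℕ) (hprime : ∀ p ∈ U, p.Prime)
    (hnum : r.num.natAbs.primeFactors ⊆ U) (hden : r.den.primeFactors ⊆ U) :
    Real.log |(r : ℝ)| = ∑ p ∈ U, (padicValRat p r : ℝ) * Real.log (p : ℝ) := by
  have hnum0 : r.num.natAbs ≠ 0 := by
    simpa using Rat.num_ne_zero.mpr hr
  have hden0 : r.den ≠ 0 := r.den_ne_zero
  have h1 : |(r : ℝ)| = (r.num.natAbs : ℝ) / (r.den : ℝ) := by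
    have h2 : (r : ℝ) = (r.num : ℝ) / (r.den : ℝ) := by
      exact_mod_cast (Rat.num_div_den r).symm
    rw [h2, abs_div, Nat.abs_cast]
    congr 1
    rw [← Int.cast_abs, Int.abs_eq_natAbs]
    simp
  rw [h1, Real.log_div (by exact_mod_cast hnum0) (by exact_mod_cast hden0),
    h87p_log_nat _ U hnum, h87p_log_nat _ U hden, ← Finset.sum_sub_distrib]
  refine Finset.sum_congr rfl fun p hp => ?_
  have : Fact p.Prime := ⟨hprime p hp⟩
  rw [← sub_mul]
  congr 1
  have h3 : padicValRat p r = (padicValInt p r.num : ℤ) - (padicValNat p r.den : ℤ) := rfl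
  rw [h3, Nat.factorization_def _ (hprime p hp), Nat.factorization_def _ (hprime p hp),
    Int.cast_sub, Int.cast_natCast, Int.cast_natCast]
  rfl

/-- `log ‖r‖_p = - v_p(r) log p`. -/
lemma h87p_log_padicNorm (p : ℕ) [Fact p.Prime] (r : ℚ) (hr : r ≠ 0) :
    Real.log ((padicNorm p r : ℚ) : ℝ) = -((padicValRat p r : ℝ) * Real.log (p : ℝ)) := by
  rw [padicNorm.eq_zpow_of_nonzero hr]
  push_cast
  rw [Real.log_zpow]
  push_cast
  ring

/-- `‖r‖_p = 1 ↔ v_p(r) = 0`. -/
lemma h87p_padicValRat_eq_zero (p : ℕ) [Fact p.Prime] (r : ℚ) (hr : r ≠ 0)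
    (h : padicNorm p r = 1) : padicValRat p r = 0 := by
  rw [padicNorm.eq_zpow_of_nonzero hr] at h
  have hp1 : (1 : ℚ) < (p : ℚ) := by exact_mod_cast (Fact.out : p.Prime).one_lt
  have := (zpow_eq_one_iff_right₀ (by positivity) hp1.ne').mp h
  omega

/-- The product formula of `ℚ` for `S`-units. -/
lemma h87p_product_formula_rat (S : Finset Nat.Primes) (r : ℚ) (hr : r ≠ 0)
    (hout : ∀ q : Nat.Primes, q ∉ S →
      haveI : Fact (q : ℕ).Prime := ⟨q.2⟩
      padicNorm (q : ℕ) r = 1) :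
    Real.log |(r : ℝ)| + ∑ q ∈ S, Real.log ((padicNorm (q : ℕ) r : ℚ) : ℝ) = 0 := by
  classical
  set U : Finset ℕ := S.image (fun q : Nat.Primes => (q : ℕ)) ∪ r.num.natAbs.primeFactors ∪
    r.den.primeFactors with hU
  have hprime : ∀ p ∈ U, p.Prime := by
    intro p hp
    rw [hU, Finset.mem_union, Finset.mem_union] at hp
    rcases hp with (hp | hp) | hp
    · obtain ⟨q, -, rfl⟩ := Finset.mem_image.mp hp
      exact q.2
    · exact Nat.prime_of_mem_primeFactors hp
    · exact Nat.prime_of_mem_primeFactors hp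
  have h1 := h87p_log_rat r hr U hprime
    (fun p hp => Finset.mem_union_left _ (Finset.mem_union_right _ hp))
    (fun p hp => Finset.mem_union_right _ hp)
  have h2 : ∑ p ∈ U, (padicValRat p r : ℝ) * Real.log (p : ℝ) =
      ∑ p ∈ S.image (fun q : Nat.Primes => (q : ℕ)), (padicValRat p r : ℝ) * Real.log (p : ℝ) := by
    symm
    refine Finset.sum_subset ?_ ?_
    · intro p hp
      exact Finset.mem_union_left _ (Finset.mem_union_left _ hp)
    · intro p hp hpS
      have hpp : p.Prime := hprime p hp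
      have hnot : (⟨p, hpp⟩ : Nat.Primes) ∉ S := by
        intro hmem
        exact hpS (Finset.mem_image.mpr ⟨⟨p, hpp⟩, hmem, rfl⟩)
      have hF : Fact p.Prime := ⟨hpp⟩
      have h3 := h87p_padicValRat_eq_zero p r hr (hout ⟨p, hpp⟩ hnot)
      rw [h3]
      simp
  have h4 : ∑ p ∈ S.image (fun q : Nat.Primes => (q : ℕ)),
      (padicValRat p r : ℝ) * Real.log (p : ℝ) =
      ∑ q ∈ S, (padicValRat (q : ℕ) r : ℝ) * Real.log ((q : ℕ) : ℝ) :=
    Finset.sum_image (f := fun p : ℕ => (padicValRat p r : ℝ) * Real.log (p : ℝ))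
      (g := fun q : Nat.Primes => (q : ℕ)) (fun a _ b _ h => Subtype.ext h)
  rw [h1, h2, h4, ← Finset.sum_add_distrib]
  refine Finset.sum_eq_zero fun q _ => ?_
  have hF : Fact (q : ℕ).Prime := ⟨q.2⟩
  rw [h87p_log_padicNorm (q : ℕ) r hr]
  ring

/-- The `q`-adic norm of a rational number through `padicEmbedding`. -/
lemma h87p_norm_padicEmbedding_rat (q : ℕ) [Fact q.Prime] (r : ℚ) :
    ‖padicEmbedding q (algebraMap ℚ Qb r)‖ = ((padicNorm q r : ℚ) : ℝ) := by
  have h1 : padicEmbedding q (algebraMap ℚ Qb r) =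
      algebraMap ℚ_[q] (PadicAlgCl q) ((r : ℚ_[q])) := by
    rw [AlgHom.commutes]
    have h2 : algebraMap ℚ (PadicAlgCl q) =
        (algebraMap ℚ_[q] (PadicAlgCl q)).comp (algebraMap ℚ ℚ_[q]) := Subsingleton.elim _ _
    rw [h2, RingHom.comp_apply, eq_ratCast]
  rw [h1]
  have h3 := PadicAlgCl.norm_extends q (r : ℚ_[q])
  rw [Padic.eq_padicNorm] at h3
  exact h3

/-- The archimedean norm of a rational number through `complexEmbedding`. -/
lemma h87p_norm_complexEmbedding_rat (r : ℚ) :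
    ‖complexEmbedding (algebraMap ℚ Qb r)‖ = |(r : ℝ)| := by
  rw [AlgHom.commutes, eq_ratCast]
  have : ((r : ℚ) : ℂ) = (((r : ℝ)) : ℂ) := by push_cast; rfl
  rw [this, Complex.norm_real, Real.norm_eq_abs]

/-- An element of `ℚ̄` fixed by `G_ℚ` is rational. -/
lemma h87p_rational_of_fixed (x : Qb) (hx : ∀ g : GQ, g x = x) :
    ∃ r : ℚ, algebraMap ℚ Qb r = x := by
  have hG : IsGalois ℚ Qb := pt79_isGalois_Qbar
  exact (InfiniteGalois.mem_range_algebraMap_iff_fixed (k := ℚ) (K := Qb) x).mpr hx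

/-- **PKG-LOG-PROD.** -/
theorem h87p_logProd : H93PkgLogProd := by
  intro S U₀ _ _ _ a
  classical
  set b : h93p_A S U₀ := ∑ g : GQ ⧸ U₀, h93p_act S U₀ g a with hb
  have h1 : ∀ i : Option ↥S, ∑ g : GQ ⧸ U₀, h93p_ell S U₀ i (h93p_act S U₀ g a) =
      h93p_ell S U₀ i b := fun i => (map_sum (h93p_ell S U₀ i) _ _).symm
  simp_rw [h1]
  -- `b` is invariant
  have hinv : ∀ h : GQ ⧸ U₀, h93p_act S U₀ h b = b := by
    intro h
    rw [hb, map_sum]
    have h2 : ∀ g : GQ ⧸ U₀, h93p_act S U₀ h (h93p_act S U₀ g a) = h93p_act S U₀ (h * g) a := by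
      intro g
      rw [map_mul]
      rfl
    simp_rw [h2]
    exact Fintype.sum_equiv (Equiv.mulLeft h) _ _ (fun g => rfl)
  have hfix : ∀ g : GQ, g (h93p_iota S U₀ b) = h93p_iota S U₀ b := by
    intro g
    rw [← h93p_iota_act, hinv]
  obtain ⟨r, hr⟩ := h87p_rational_of_fixed _ hfix
  have hr0 : r ≠ 0 := by
    rintro rfl
    rw [map_zero] at hr
    exact h93p_iota_ne_zero S U₀ b hr.symm
  -- the local logarithms of `b`
  have hq : ∀ q : Nat.Primes, h93p_logQ q (h93p_iota S U₀ b) =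
      haveI : Fact (q : ℕ).Prime := ⟨q.2⟩
      Real.log ((padicNorm (q : ℕ) r : ℚ) : ℝ) := by
    intro q
    have hF : Fact (q : ℕ).Prime := ⟨q.2⟩
    show Real.log ‖padicEmbedding (q : ℕ) (h93p_iota S U₀ b)‖ = _
    rw [← hr, h87p_norm_padicEmbedding_rat]
  have hinf : h93p_logInf (h93p_iota S U₀ b) = Real.log |(r : ℝ)| := by
    show Real.log ‖complexEmbedding (h93p_iota S U₀ b)‖ = _
    rw [← hr, h87p_norm_complexEmbedding_rat]
  -- `r` is an `S`-unit of `ℚ`
  have hout : ∀ q : Nat.Primes, q ∉ S →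
      haveI : Fact (q : ℕ).Prime := ⟨q.2⟩
      padicNorm (q : ℕ) r = 1 := by
    intro q hqS
    have hF : Fact (q : ℕ).Prime := ⟨q.2⟩
    obtain ⟨hv1, hv2⟩ := h93p_iota_val S U₀ b q hqS (padicPlace (q : ℕ))
      (h23b_padicPlace_liesOver (q : ℕ))
    rw [mem_padicPlace_iff] at hv1 hv2
    rw [← hr] at hv1 hv2
    have h3 : ‖padicEmbedding (q : ℕ) (algebraMap ℚ Qb r)‖ ≤ 1 := by exact_mod_cast hv1
    have h4 : ‖padicEmbedding (q : ℕ) (algebraMap ℚ Qb r)⁻¹‖ ≤ 1 := by exact_mod_cast hv2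
    rw [map_inv₀, norm_inv] at h4
    rw [h87p_norm_padicEmbedding_rat] at h3 h4
    have hpos : (0 : ℝ) < ((padicNorm (q : ℕ) r : ℚ) : ℝ) := by
      have : 0 < padicNorm (q : ℕ) r := by
        rcases lt_or_eq_of_le (padicNorm.nonneg (p := (q : ℕ)) r) with h | h
        · exact h
        · exact absurd (padicNorm.zero_of_padicNorm_eq_zero h.symm) hr0
      exact_mod_cast this
    have h5 : (1 : ℝ) ≤ ((padicNorm (q : ℕ) r : ℚ) : ℝ) := by
      rw [inv_le_one₀ hpos] at h4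
      exact h4
    have h6 : ((padicNorm (q : ℕ) r : ℚ) : ℝ) = 1 := le_antisymm h3 h5
    exact_mod_cast h6
  rw [Fintype.sum_option]
  simp only [h93p_ell_apply, h93p_log_none, h93p_log_some, hinf, hq]
  have hpf := h87p_product_formula_rat S r hr0 hout
  rw [← hpf]
  congr 1
  exact (Finset.sum_coe_sort S (fun q : Nat.Primes =>
    Real.log ((padicNorm (q : ℕ) r : ℚ) : ℝ)))

end Fermat.Agent.S56G
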